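/-
Fermat/Agent/Jac/FiniteToLine80/DomainOfDef.lean  (helper80)

S25 programme (JAC), brick C2 FiniteToLine, part 1.

For an integral scheme `X` and a rational function `f : X.functionField` we construct, by gluing
sections of the structure sheaf, the *domain of definition* `dom f : X.Opens` together with the
regular function `sec f : Γ(X, dom f)` representing `f`.  A point `x` lies in `dom f` iff `f` lies
in the image of the local ring `𝒪_{X,x}` in the function field.
-/
import Mathlib

set_option autoImplicit false

universe u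

open AlgebraicGeometry CategoryTheory TopologicalSpace Opposite

namespace Fermat.Agent.Jac.FiniteToLine80

variable {X : Scheme.{u}} [IsIntegral X]

/-- The generic point lies in every nonempty open. -/
lemma genericPoint_mem_of_nonempty (U : X.Opens) (h : (U : Set X).Nonempty) :
    genericPoint X ∈ U :=
  ((genericPoint_spec X).mem_open_set_iff U.isOpen).mpr (by simpa using h)

lemma genericPoint_mem_of_mem {U : X.Opens} {x : X} (hx : x ∈ U) : genericPoint X ∈ U :=
  genericPoint_mem_of_nonempty U ⟨x, hx⟩

/-- The value in the function field of a section over an open containing the generic point. -/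
noncomputable def toFF (U : X.Opens) (hU : genericPoint X ∈ U) (a : Γ(X, U)) : X.functionField :=
  X.presheaf.germ U (genericPoint X) hU a

lemma toFF_injective (U : X.Opens) (hU : genericPoint X ∈ U) :
    Function.Injective (toFF U hU) :=
  germ_injective_of_isIntegral X (genericPoint X) hU

lemma toFF_res {U V : X.Opens} (hUV : U ≤ V) (hU : genericPoint X ∈ U) (a : Γ(X, V)) :
    toFF U hU (X.presheaf.map (homOfLE hUV).op a) = toFF V (hUV hU) a :=
  X.presheaf.germ_res_apply (homOfLE hUV) (genericPoint X) hU a

lemma toFF_eq_algebraMap_germ {U : X.Opens} {x : X} (hx : x ∈ U) (a : Γ(X, U)) :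
    toFF U (genericPoint_mem_of_mem hx) a =
      algebraMap (X.presheaf.stalk x) X.functionField (X.presheaf.germ U x hx a) := by
  have : Nonempty U := ⟨⟨x, hx⟩⟩
  rw [Scheme.algebraMap_germ_eq_germToFunctionField]
  rfl

lemma toFF_map_mul (U : X.Opens) (hU : genericPoint X ∈ U) (a b : Γ(X, U)) :
    toFF U hU (a * b) = toFF U hU a * toFF U hU b := map_mul _ _ _

lemma toFF_map_one (U : X.Opens) (hU : genericPoint X ∈ U) :
    toFF U hU (1 : Γ(X, U)) = 1 := map_one _

lemma toFF_map_sub (U : X.Opens) (hU : genericPoint X ∈ U) (a b : Γ(X, U)) :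
    toFF U hU (a - b) = toFF U hU a - toFF U hU b := map_sub _ _ _

/-- Index type of local representatives of a rational function. -/
def Rep (f : X.functionField) : Type u :=
  {p : Σ V : X.Opens, Γ(X, V) // ∃ h : genericPoint X ∈ p.1, toFF p.1 h p.2 = f}

/-- The open set of a representative. -/
def Rep.opens {f : X.functionField} (i : Rep f) : X.Opens := i.1.1

/-- The section of a representative. -/
def Rep.sec {f : X.functionField} (i : Rep f) : Γ(X, i.opens) := i.1.2

lemma Rep.gen_mem {f : X.functionField} (i : Rep f) : genericPoint X ∈ i.opens := i.2.1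

lemma Rep.toFF_sec {f : X.functionField} (i : Rep f) : toFF i.opens i.gen_mem i.sec = f := i.2.2

lemma Rep.nonempty (f : X.functionField) : Nonempty (Rep f) := by
  obtain ⟨U, hU, a, ha⟩ := X.presheaf.exists_germ_eq (x := genericPoint X) f
  exact ⟨⟨⟨U, a⟩, hU, ha⟩⟩

lemma Rep.isCompatible (f : X.functionField) :
    TopCat.Presheaf.IsCompatible X.presheaf (fun i : Rep f => i.opens) (fun i => i.sec) := by
  intro i j
  have hij : genericPoint X ∈ i.opens ⊓ j.opens := ⟨i.gen_mem, j.gen_mem⟩
  apply toFF_injective _ hij
  have h1 := toFF_res (inf_le_left : i.opens ⊓ j.opens ≤ i.opens) hij i.sec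
  have h2 := toFF_res (inf_le_right : i.opens ⊓ j.opens ≤ j.opens) hij j.sec
  rw [i.toFF_sec] at h1
  rw [j.toFF_sec] at h2
  exact h1.trans h2.symm

/-- The domain of definition of a rational function. -/
def dom (f : X.functionField) : X.Opens := ⨆ i : Rep f, i.opens

lemma Rep.opens_le_dom {f : X.functionField} (i : Rep f) : i.opens ≤ dom f :=
  le_iSup (fun i : Rep f => i.opens) i

/-- The regular function on `dom f` representing `f`. -/
noncomputable def sec (f : X.functionField) : Γ(X, dom f) :=
  (X.sheaf.existsUnique_gluing (fun i : Rep f => i.opens) (fun i => i.sec)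
    (Rep.isCompatible f)).choose

lemma sec_res {f : X.functionField} (i : Rep f) :
    X.presheaf.map (homOfLE i.opens_le_dom).op (sec f) = i.sec :=
  (X.sheaf.existsUnique_gluing (fun i : Rep f => i.opens) (fun i => i.sec)
    (Rep.isCompatible f)).choose_spec.1 i

lemma genericPoint_mem_dom (f : X.functionField) : genericPoint X ∈ dom f := by
  obtain ⟨i⟩ := Rep.nonempty f
  exact i.opens_le_dom i.gen_mem

lemma toFF_sec (f : X.functionField) : toFF (dom f) (genericPoint_mem_dom f) (sec f) = f := by
  obtain ⟨i⟩ := Rep.nonempty f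
  rw [← toFF_res i.opens_le_dom i.gen_mem, sec_res, i.toFF_sec]

/-- Any local representative of `f` is a restriction of `sec f`. -/
lemma le_dom_of_toFF_eq {f : X.functionField} {V : X.Opens} (hV : genericPoint X ∈ V)
    (a : Γ(X, V)) (ha : toFF V hV a = f) : V ≤ dom f :=
  Rep.opens_le_dom (f := f) ⟨⟨V, a⟩, hV, ha⟩

lemma sec_res_of_toFF_eq {f : X.functionField} {V : X.Opens} (hV : genericPoint X ∈ V)
    (a : Γ(X, V)) (ha : toFF V hV a = f) :
    X.presheaf.map (homOfLE (le_dom_of_toFF_eq hV a ha)).op (sec f) = a :=
  sec_res (f := f) ⟨⟨V, a⟩, hV, ha⟩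

lemma mem_dom_iff {f : X.functionField} {x : X} :
    x ∈ dom f ↔ f ∈ Set.range (algebraMap (X.presheaf.stalk x) X.functionField) := by
  constructor
  · intro hx
    refine ⟨X.presheaf.germ (dom f) x hx (sec f), ?_⟩
    rw [← toFF_eq_algebraMap_germ hx, toFF_sec]
  · rintro ⟨β, hβ⟩
    obtain ⟨V, hxV, a, ha⟩ := X.presheaf.exists_germ_eq (x := x) β
    have hV : genericPoint X ∈ V := genericPoint_mem_of_mem hxV
    have : toFF V hV a = f := by
      rw [toFF_eq_algebraMap_germ hxV, ha, hβ]
    exact le_dom_of_toFF_eq hV a this hxV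

lemma algebraMap_germ_sec {f : X.functionField} {x : X} (hx : x ∈ dom f) :
    algebraMap (X.presheaf.stalk x) X.functionField (X.presheaf.germ (dom f) x hx (sec f)) = f := by
  rw [← toFF_eq_algebraMap_germ hx, toFF_sec]

end Fermat.Agent.Jac.FiniteToLine80
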