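/-
Fermat/Agent/Jac/FiniteToLine80/LineMap.lean  (helper80)

S25 programme (JAC), brick C2 FiniteToLine, part 4.

For a `k`-scheme `c : C ⟶ Spec k`, an open `U ⊆ C` and a function `t : Γ(C, U)` we define the
`k`-morphism `lineMap c U t : U ⟶ Spec k[X]` (`X ↦ t`) and collect its elementary properties.
-/
import Fermat.Agent.Jac.FiniteToLine80.DomainOfDef

set_option autoImplicit false

universe u

open AlgebraicGeometry CategoryTheory TopologicalSpace Opposite Polynomial

namespace Fermat.Agent.Jac.FiniteToLine80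

section LineMap

variable {k : Type u} [Field k] {C : Scheme.{u}} (c : C ⟶ Spec (.of k))

/-- The structure map `k → Γ(C, U)` of a `k`-scheme. -/
noncomputable def kToSection (U : C.Opens) : CommRingCat.of k ⟶ Γ(C, U) :=
  (Scheme.ΓSpecIso (.of k)).inv ≫ c.appTop ≫ C.presheaf.map (homOfLE le_top).op

lemma toSpecΓ_SpecMap_kToSection (U : C.Opens) :
    U.toSpecΓ ≫ Spec.map (kToSection c U) = U.ι ≫ c := by
  unfold kToSection
  rw [Spec.map_comp, Spec.map_comp, Category.assoc,
    Scheme.Opens.toSpecΓ_SpecMap_presheaf_map_top_assoc,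
    ← Scheme.toSpecΓ_naturality_assoc, toSpecΓ_SpecMap_ΓSpecIso_inv, Category.comp_id]

lemma kToSection_comp_res {U V : C.Opens} (hUV : U ≤ V) :
    kToSection c V ≫ C.presheaf.map (homOfLE hUV).op = kToSection c U := by
  unfold kToSection
  simp only [Category.assoc, ← Functor.map_comp]
  rfl

lemma kToSection_res {U V : C.Opens} (hUV : U ≤ V) (a : k) :
    C.presheaf.map (homOfLE hUV).op (kToSection c V a) = kToSection c U a := by
  rw [← kToSection_comp_res c hUV]
  rfl

/-- The ring map `k[X] → Γ(C, U)`, `X ↦ t`. -/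
noncomputable def polyToSection (U : C.Opens) (t : Γ(C, U)) :
    CommRingCat.of k[X] ⟶ Γ(C, U) :=
  CommRingCat.ofHom (Polynomial.eval₂RingHom (kToSection c U).hom t)

lemma polyToSection_apply (U : C.Opens) (t : Γ(C, U)) (p : k[X]) :
    polyToSection c U t p = p.eval₂ (kToSection c U).hom t := rfl

lemma polyToSection_X (U : C.Opens) (t : Γ(C, U)) : polyToSection c U t (X : k[X]) = t := by
  simp [polyToSection]

lemma polyToSection_C (U : C.Opens) (t : Γ(C, U)) (a : k) :
    polyToSection c U t (Polynomial.C a) = kToSection c U a := by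
  simp [polyToSection]

lemma C_comp_polyToSection (U : C.Opens) (t : Γ(C, U)) :
    CommRingCat.ofHom (Polynomial.C : k →+* k[X]) ≫ polyToSection c U t = kToSection c U := by
  ext a
  simp [polyToSection]

/-- The morphism `U → 𝔸¹_k` defined by a function `t` on `U`. -/
noncomputable def lineMap (U : C.Opens) (t : Γ(C, U)) : U.toScheme ⟶ Spec (.of k[X]) :=
  U.toSpecΓ ≫ Spec.map (polyToSection c U t)

lemma lineMap_comp (U : C.Opens) (t : Γ(C, U)) :
    lineMap c U t ≫ Spec.map (CommRingCat.ofHom (Polynomial.C : k →+* k[X])) = U.ι ≫ c := by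
  unfold lineMap
  rw [Category.assoc, ← Spec.map_comp, C_comp_polyToSection, toSpecΓ_SpecMap_kToSection]

lemma lineMap_preimage_basicOpen (U : C.Opens) (t : Γ(C, U)) (p : k[X]) :
    lineMap c U t ⁻¹ᵁ (PrimeSpectrum.basicOpen p) =
      U.ι ⁻¹ᵁ C.basicOpen (polyToSection c U t p) := by
  unfold lineMap
  change U.toSpecΓ ⁻¹ᵁ (Spec.map (polyToSection c U t) ⁻¹ᵁ PrimeSpectrum.basicOpen p) = _
  rw [SpecMap_preimage_basicOpen, Scheme.Opens.toSpecΓ_preimage_basicOpen]

instance locallyOfFiniteType_SpecMap_C :
    LocallyOfFiniteType (Spec.map (CommRingCat.ofHom (Polynomial.C : k →+* k[X]))) := by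
  rw [HasRingHomProperty.Spec_iff (P := @LocallyOfFiniteType)]
  change (Polynomial.C : k →+* k[X]).FiniteType
  rw [← Polynomial.algebraMap_eq]
  exact RingHom.finiteType_algebraMap.mpr inferInstance

end LineMap

section FunctionField

variable {k : Type u} [Field k] {C : Scheme.{u}} [IsIntegral C] (c : C ⟶ Spec (.of k))

/-- The structure map `k → K(C)`. -/
noncomputable def kToFF : k →+* C.functionField :=
  (C.presheaf.germ ⊤ (genericPoint C) trivial).hom.comp (kToSection c ⊤).hom

lemma toFF_kToSection (U : C.Opens) (hU : genericPoint C ∈ U) (a : k) :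
    toFF U hU (kToSection c U a) = kToFF c a := by
  rw [← kToSection_res c (le_top : U ≤ ⊤) a, toFF_res]
  rfl

lemma toFF_polyToSection (U : C.Opens) (hU : genericPoint C ∈ U) (t : Γ(C, U)) (p : k[X]) :
    toFF U hU (polyToSection c U t p) = p.eval₂ (kToFF c) (toFF U hU t) := by
  rw [polyToSection_apply]
  have := Polynomial.hom_eval₂ p (kToSection c U).hom (C.presheaf.germ U (genericPoint C) hU).hom t
  refine this.trans ?_
  congr 1
  ext a
  exact toFF_kToSection c U hU a

/-- Over an algebraically closed field, a root of a nonzero polynomial is a constant. -/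
lemma mem_range_of_eval₂_eq_zero {k K : Type*} [Field k] [IsAlgClosed k] [Field K]
    (κ : k →+* K) (f : K) (p : k[X]) (hp : p ≠ 0) (h : p.eval₂ κ f = 0) : f ∈ Set.range κ := by
  let _ := κ.toAlgebra
  have halg : IsAlgebraic k f := ⟨p, hp, by rw [Polynomial.aeval_def]; exact h⟩
  have hint : IsIntegral k f := halg.isIntegral
  have hdeg := IsAlgClosed.degree_eq_one_of_irreducible k (minpoly.irreducible hint)
  exact minpoly.mem_range_of_degree_eq_one k f hdeg

/-- For a nonconstant rational function over an algebraically closed field, the map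
`k[X] → Γ(C, U)`, `X ↦ t`, is injective. -/
lemma polyToSection_ne_zero [IsAlgClosed k] (U : C.Opens) (hU : genericPoint C ∈ U) (t : Γ(C, U))
    (ht : toFF U hU t ∉ Set.range (kToFF c)) (p : k[X]) (hp : p ≠ 0) :
    polyToSection c U t p ≠ 0 := by
  intro h0
  apply ht
  refine mem_range_of_eval₂_eq_zero (kToFF c) _ p hp ?_
  rw [← toFF_polyToSection, h0]
  exact map_zero _

/-- A nonzero section is invertible at the generic point. -/
lemma genericPoint_mem_basicOpen {U : C.Opens} (hU : genericPoint C ∈ U) (s : Γ(C, U))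
    (hs : s ≠ 0) : genericPoint C ∈ C.basicOpen s := by
  rw [Scheme.mem_basicOpen C s _ hU]
  have : toFF U hU s ≠ 0 := fun h => hs (toFF_injective U hU (h.trans (map_zero _).symm))
  exact isUnit_iff_ne_zero.mpr this

end FunctionField

end Fermat.Agent.Jac.FiniteToLine80
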