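/-
Fermat/Agent/Jac/FiniteToLine80/PartialProper.lean  (helper80)

S25 programme (JAC), brick C2 FiniteToLine, part 3.

Let `c : C ⟶ S` satisfy the existence part of the valuative criterion (e.g. `c` proper), let
`U ⊆ C` be open and let `g : U ⟶ Spec P` be the `S`-morphism given by a ring map `φ : P ⟶ Γ(C, U)`.
If for some `p : P` the function `t = φ p` has "a pole at every point outside `U`" (i.e. near every
`x ∉ U` there is a function `b` vanishing at `x` with `b * t = 1`), then `g` again satisfies the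
existence part of the valuative criterion.  With `U` quasi-compact and `c` proper, `g` is proper.
-/
import Mathlib

set_option autoImplicit false

universe u

open AlgebraicGeometry CategoryTheory TopologicalSpace Opposite

namespace Fermat.Agent.Jac.FiniteToLine80

/-- Key lemma: a point of a "local" scheme `T` cannot be mapped to a pole of `t` if `t` pulls back
to a regular function on `T`. -/
lemma false_of_pole {T T' C : Scheme.{u}} (l : T ⟶ C) (ψ : T' ⟶ T)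
    (hψ : Function.Injective ψ.appTop)
    (z : T) (hz : ∀ V : T.Opens, z ∈ V → V = ⊤)
    (U W : C.Opens) (t : Γ(C, U)) (b : Γ(C, W))
    (hbt : C.presheaf.map (homOfLE (inf_le_left : W ⊓ U ≤ W)).op b *
      C.presheaf.map (homOfLE (inf_le_right : W ⊓ U ≤ U)).op t = 1)
    (hzW : l z ∈ W) (hzb : l z ∉ C.basicOpen b)
    (hU : ⊤ ≤ (ψ ≫ l) ⁻¹ᵁ U)
    (ρ : Γ(T, ⊤)) (hρ : ψ.appTop ρ = (ψ ≫ l).appLE U ⊤ hU t) : False := by
  have hW : (⊤ : T.Opens) ≤ l ⁻¹ᵁ W := (hz (l ⁻¹ᵁ W) hzW).ge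
  have hW' : (⊤ : T'.Opens) ≤ (ψ ≫ l) ⁻¹ᵁ W := fun x _ => hW (show ψ x ∈ (⊤ : T.Opens) from trivial)
  have hWU' : (⊤ : T'.Opens) ≤ (ψ ≫ l) ⁻¹ᵁ (W ⊓ U) := fun x hx => ⟨hW' hx, hU hx⟩
  have h1 : ψ.appTop (l.appLE W ⊤ hW b) = (ψ ≫ l).appLE W ⊤ hW' b := by
    have := Scheme.Hom.appLE_comp_appLE ψ l W ⊤ ⊤ hW (le_top)
    rw [← this]
    simp [Scheme.Hom.app_eq_appLE]
  have hb' : (ψ ≫ l).appLE W ⊤ hW' b =
      (ψ ≫ l).appLE (W ⊓ U) ⊤ hWU' (C.presheaf.map (homOfLE (inf_le_left : W ⊓ U ≤ W)).op b) := by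
    rw [← CommRingCat.comp_apply, Scheme.Hom.map_appLE]
  have ht' : (ψ ≫ l).appLE U ⊤ hU t =
      (ψ ≫ l).appLE (W ⊓ U) ⊤ hWU' (C.presheaf.map (homOfLE (inf_le_right : W ⊓ U ≤ U)).op t) := by
    rw [← CommRingCat.comp_apply, Scheme.Hom.map_appLE]
  have h2 : ψ.appTop (l.appLE W ⊤ hW b * ρ) = 1 := by
    rw [map_mul, h1, hρ, hb', ht', ← map_mul, hbt, map_one]
  have h3 : l.appLE W ⊤ hW b * ρ = 1 := hψ (h2.trans (map_one _).symm)
  have h4 : IsUnit (l.appLE W ⊤ hW b) := IsUnit.of_mul_eq_one ρ h3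
  have h5 := T.basicOpen_of_isUnit h4
  have h6 := Scheme.basicOpen_appLE l ⊤ W hW b
  rw [h5] at h6
  have : z ∈ (⊤ : T.Opens) ⊓ l ⁻¹ᵁ C.basicOpen b := by rw [← h6]; trivial
  exact hzb this.2

set_option backward.isDefEq.respectTransparency false in
lemma appLE_comp_ι {T C : Scheme.{u}} (U : C.Opens) (i : T ⟶ U.toScheme)
    (h : (⊤ : T.Opens) ≤ (i ≫ U.ι) ⁻¹ᵁ U) (t : Γ(C, U)) :
    (i ≫ U.ι).appLE U ⊤ h t = i.appTop (U.topIso.inv t) := by
  rw [Scheme.Hom.comp_appLE]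
  simp only [CommRingCat.comp_apply]
  have e : U.ι ⁻¹ᵁ U = (⊤ : U.toScheme.Opens) := U.ι_preimage_self
  have h2 : U.ι.app U t = U.toScheme.presheaf.map (eqToHom e).op (U.topIso.inv t) := by
    rw [Scheme.Opens.ι_app_self, Scheme.Opens.topIso_inv, Scheme.Opens.toScheme_presheaf_map,
      ← CommRingCat.comp_apply, ← Functor.map_comp]
    rfl
  rw [h2, ← CommRingCat.comp_apply, Scheme.Hom.map_appLE, Scheme.Hom.appTop,
    Scheme.Hom.app_eq_appLE]
  rfl

lemma appLE_of_eq {T C : Scheme.{u}} (U : C.Opens) (i : T ⟶ U.toScheme) (e : T ⟶ C)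
    (he : e = i ≫ U.ι)
    (h : (⊤ : T.Opens) ≤ e ⁻¹ᵁ U) (t : Γ(C, U)) :
    e.appLE U ⊤ h t = i.appTop (U.topIso.inv t) := by
  subst he
  exact appLE_comp_ι U i h t

lemma appTop_SpecMap_injective {R K : CommRingCat.{u}} (f : R ⟶ K) (hf : Function.Injective f) :
    Function.Injective (Spec.map f).appTop := by
  have h := Scheme.ΓSpecIso_naturality f
  have : (Spec.map f).appTop = (Scheme.ΓSpecIso R).hom ≫ f ≫ (Scheme.ΓSpecIso K).inv := by
    rw [← Category.assoc, ← h, Category.assoc, Iso.hom_inv_id, Category.comp_id]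
  rw [this]
  intro x y hxy
  simp only [CommRingCat.comp_apply] at hxy
  have h1 := (ConcreteCategory.bijective_of_isIso (Scheme.ΓSpecIso K).inv).injective hxy
  have h2 := hf h1
  exact (ConcreteCategory.bijective_of_isIso (Scheme.ΓSpecIso R).hom).injective h2

/-- The value of the coordinate function: `(U.toSpecΓ ≫ Spec.map φ)^* p = φ p`. -/
lemma toSpecΓ_SpecMap_appTop {C : Scheme.{u}} (U : C.Opens) {P : CommRingCat.{u}}
    (φ : P ⟶ Γ(C, U)) (p : P) :
    (U.toSpecΓ ≫ Spec.map φ).appTop ((Scheme.ΓSpecIso P).inv p) = U.topIso.inv (φ p) := by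
  rw [Scheme.Hom.comp_appTop]
  simp only [CommRingCat.comp_apply]
  rw [Scheme.Opens.toSpecΓ_appTop]
  simp only [CommRingCat.comp_apply]
  congr 1
  have := Scheme.ΓSpecIso_naturality φ
  rw [← CommRingCat.comp_apply, this, CommRingCat.comp_apply,
    ← CommRingCat.comp_apply (Scheme.ΓSpecIso P).inv, Iso.inv_hom_id, CommRingCat.id_apply]

/-- Existence part of the valuative criterion for a partially defined morphism to an affine scheme
whose coordinate has poles outside its domain. -/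
theorem existence_partial {C S : Scheme.{u}} (c : C ⟶ S) (hc : ValuativeCriterion.Existence c)
    (U : C.Opens) {P : CommRingCat.{u}} (φ : P ⟶ Γ(C, U)) (q : Spec P ⟶ S)
    (hq : (U.toSpecΓ ≫ Spec.map φ) ≫ q = U.ι ≫ c)
    (p : P)
    (hpole : ∀ x : C, x ∉ U → ∃ (W : C.Opens) (b : Γ(C, W)), x ∈ W ∧ x ∉ C.basicOpen b ∧
        C.presheaf.map (homOfLE (inf_le_left : W ⊓ U ≤ W)).op b *
          C.presheaf.map (homOfLE (inf_le_right : W ⊓ U ≤ U)).op (φ p) = 1) :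
    ValuativeCriterion.Existence (U.toSpecΓ ≫ Spec.map φ) := by
  intro Sq
  set ψ := Spec.map (CommRingCat.ofHom (algebraMap Sq.R Sq.K)) with hψdef
  have w : (Sq.i₁ ≫ U.ι) ≫ c = ψ ≫ (Sq.i₂ ≫ q) := by
    rw [Category.assoc, ← hq, ← Category.assoc, Sq.commSq.w, Category.assoc]
  let Sq' : ValuativeCommSq c :=
    { R := Sq.R
      K := Sq.K
      i₁ := Sq.i₁ ≫ U.ι
      i₂ := Sq.i₂ ≫ q
      commSq := ⟨w⟩ }
  obtain ⟨l, hl₁, hl₂⟩ := (hc Sq').exists_lift
  change ψ ≫ l = Sq.i₁ ≫ U.ι at hl₁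
  change l ≫ c = Sq.i₂ ≫ q at hl₂
  have hinj : Function.Injective (CommRingCat.ofHom (algebraMap Sq.R Sq.K)) :=
    IsFractionRing.injective Sq.R Sq.K
  have hloc : ∀ V : (Spec (.of Sq.R)).Opens, IsLocalRing.closedPoint Sq.R ∈ V → V = ⊤ :=
    fun V hV => (IsLocalRing.closedPoint_mem_iff (U := V)).mp hV
  have key : l (IsLocalRing.closedPoint Sq.R) ∈ U := by
    by_contra hx
    obtain ⟨W, b, hxW, hxb, hbt⟩ := hpole _ hx
    have hU : (⊤ : (Spec (.of Sq.K)).Opens) ≤ (ψ ≫ l) ⁻¹ᵁ U := by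
      rw [hl₁]
      intro y _
      exact (Sq.i₁ y).2
    refine false_of_pole l ψ (appTop_SpecMap_injective _ hinj) (IsLocalRing.closedPoint Sq.R) hloc
      U W (φ p) b hbt hxW hxb hU (Sq.i₂.appTop ((Scheme.ΓSpecIso P).inv p)) ?_
    rw [appLE_of_eq U Sq.i₁ (ψ ≫ l) hl₁ hU]
    rw [← CommRingCat.comp_apply, ← Scheme.Hom.comp_appTop, ← Sq.commSq.w,
      Scheme.Hom.comp_appTop (Sq.i₁)]
    simp only [CommRingCat.comp_apply]
    rw [toSpecΓ_SpecMap_appTop]
  have hrange : Set.range l ⊆ Set.range U.ι := by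
    rintro _ ⟨y, rfl⟩
    have : (l ⁻¹ᵁ U) = ⊤ := hloc _ key
    have hy : y ∈ l ⁻¹ᵁ U := by rw [this]; trivial
    simpa using hy
  set l' := IsOpenImmersion.lift U.ι l hrange with hl'
  have hfac : l' ≫ U.ι = l := IsOpenImmersion.lift_fac _ _ _
  have h₁ : ψ ≫ l' = Sq.i₁ := by
    rw [← cancel_mono U.ι, Category.assoc, hfac, hl₁]
  have h₂ : l' ≫ (U.toSpecΓ ≫ Spec.map φ) = Sq.i₂ := by
    have h3 : ψ ≫ l' ≫ (U.toSpecΓ ≫ Spec.map φ) = ψ ≫ Sq.i₂ := by
      rw [← Category.assoc, h₁, Sq.commSq.w]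
    rw [← Spec.map_preimage (l' ≫ (U.toSpecΓ ≫ Spec.map φ)), ← Spec.map_preimage Sq.i₂,
      hψdef, ← Spec.map_comp, ← Spec.map_comp] at h3
    have h4 := Spec.map_injective h3
    rw [← Spec.map_preimage (l' ≫ (U.toSpecΓ ≫ Spec.map φ)), ← Spec.map_preimage Sq.i₂]
    congr 1
    ext x
    apply hinj
    exact congr($h4 x)
  exact ⟨⟨⟨l', h₁, h₂⟩⟩⟩

/-- Properness of the partially defined morphism. -/
theorem isProper_partial {C S : Scheme.{u}} (c : C ⟶ S) [IsProper c]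
    (U : C.Opens) (hU : IsCompact (U : Set C))
    {P : CommRingCat.{u}} (φ : P ⟶ Γ(C, U)) (q : Spec P ⟶ S)
    (hq : (U.toSpecΓ ≫ Spec.map φ) ≫ q = U.ι ≫ c)
    (p : P)
    (hpole : ∀ x : C, x ∉ U → ∃ (W : C.Opens) (b : Γ(C, W)), x ∈ W ∧ x ∉ C.basicOpen b ∧
        C.presheaf.map (homOfLE (inf_le_left : W ⊓ U ≤ W)).op b *
          C.presheaf.map (homOfLE (inf_le_right : W ⊓ U ≤ U)).op (φ p) = 1) :
    IsProper (U.toSpecΓ ≫ Spec.map φ) := by
  have hc : ValuativeCriterion.Existence c := by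
    have h : UniversallyClosed c := inferInstance
    rw [UniversallyClosed.eq_valuativeCriterion] at h
    exact h.1
  have hex := existence_partial c hc U φ q hq p hpole
  have : CompactSpace U.toScheme := isCompact_iff_compactSpace.mp hU
  have hqc : QuasiCompact (U.toSpecΓ ≫ Spec.map φ) :=
    (quasiCompact_iff_compactSpace _).mpr this
  have huc : UniversallyClosed (U.toSpecΓ ≫ Spec.map φ) :=
    UniversallyClosed.of_valuativeCriterion _ hex
  have hsep : IsSeparated ((U.toSpecΓ ≫ Spec.map φ) ≫ q) := by rw [hq]; infer_instance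
  have hsep' : IsSeparated (U.toSpecΓ ≫ Spec.map φ) := IsSeparated.of_comp _ q
  have hft : LocallyOfFiniteType ((U.toSpecΓ ≫ Spec.map φ) ≫ q) := by rw [hq]; infer_instance
  have hft' : LocallyOfFiniteType (U.toSpecΓ ≫ Spec.map φ) := locallyOfFiniteType_of_comp _ q
  exact {}

end Fermat.Agent.Jac.FiniteToLine80
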