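/-
Fermat/Agent/Jac/FiniteToLine80/FiniteChart.lean  (helper80)

S25 programme (JAC), brick C2 FiniteToLine, part 5.

Let `c : C ⟶ Spec k` be proper with `k` algebraically closed and `C` integral, such that every
non-generic point of `C` is closed and all local rings of `C` are valuation rings (a smooth proper
curve).  For a nonconstant rational function `f` the domain of definition `dom f` is an affine open
and `Γ(C, dom f)` is a finite `k[X]`-algebra via `X ↦ sec f`
(valuative criterion + Zariski's main theorem).
-/
import Fermat.Agent.Jac.FiniteToLine80.Poles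
import Fermat.Agent.Jac.FiniteToLine80.PartialProper
import Fermat.Agent.Jac.FiniteToLine80.LineMap

set_option autoImplicit false

universe u

open AlgebraicGeometry CategoryTheory TopologicalSpace Opposite Polynomial

namespace Fermat.Agent.Jac.FiniteToLine80

lemma finite_of_isClosed_of_notMem {α : Type*} [TopologicalSpace α] [NoetherianSpace α]
    [QuasiSober α] (η : α) (hdim : ∀ x : α, x ≠ η → IsClosed ({x} : Set α)) {Z : Set α}
    (hZ : IsClosed Z) (hη : η ∉ Z) : Z.Finite := by
  obtain ⟨S, hSf, hSc, hSi, rfl⟩ := NoetherianSpace.exists_finite_set_isClosed_irreducible hZ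
  refine Set.Finite.sUnion hSf (fun t ht => ?_)
  obtain ⟨z, hz⟩ := QuasiSober.sober (hSi t ht) (hSc t ht)
  have hzt : z ∈ t := hz.mem
  have hzη : z ≠ η := fun h => hη ⟨t, ht, h ▸ hzt⟩
  have : t = {z} := by rw [← hz.def, (hdim z hzη).closure_eq]
  rw [this]; exact Set.finite_singleton z

lemma not_isClosed_singleton_of_asIdeal_eq_bot {k : Type u} [Field k]
    (y : Spec (CommRingCat.of k[X])) (hy : y.asIdeal = ⊥) : ¬ IsClosed ({y} : Set (Spec (.of k[X]))) := by
  intro hcl
  have hmax : y.asIdeal.IsMaximal := (PrimeSpectrum.isClosed_singleton_iff_isMaximal y).mp hcl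
  rw [hy] at hmax
  have hne : Ideal.span {(X : k[X])} ≠ ⊤ := by
    rw [Ne, Ideal.span_singleton_eq_top]
    exact Polynomial.not_isUnit_X
  have := hmax.eq_of_le hne bot_le
  have hX : (X : k[X]) ∈ (⊥ : Ideal k[X]) := by
    rw [this]; exact Ideal.mem_span_singleton_self _
  exact (Polynomial.X_ne_zero (R := k)) (Ideal.mem_bot.mp hX)

section

variable {k : Type u} [Field k] [IsAlgClosed k] {C : Scheme.{u}} (c : C ⟶ Spec (.of k))
  [IsIntegral C]

omit [IsIntegral C] in
/-- Closed points go to closed points under `lineMap`. -/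
lemma isClosed_lineMap_of_isClosed [LocallyOfFiniteType c] (U : C.Opens) (t : Γ(C, U))
    (x : U.toScheme) (hx : IsClosed ({x} : Set U.toScheme)) :
    IsClosed ({lineMap c U t x} : Set (Spec (CommRingCat.of k[X]))) := by
  have hh : LocallyOfFiniteType (U.ι ≫ c) := inferInstance
  set σ := pointOfClosedPoint (U.ι ≫ c) x hx ≫ lineMap c U t with hσdef
  set q := Spec.map (CommRingCat.ofHom (Polynomial.C : k →+* k[X])) with hqdef
  have hσ : σ ≫ q = 𝟙 _ := by
    rw [hσdef, Category.assoc, lineMap_comp, pointOfClosedPoint_comp]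
  have := (pointEquivClosedPoint q ⟨σ, hσ⟩).2
  have h2 : σ (IsLocalRing.closedPoint k) = lineMap c U t x := by
    have h3 := pointOfClosedPoint_apply (U.ι ≫ c) x hx (IsLocalRing.closedPoint k)
    rw [hσdef]
    exact congrArg (lineMap c U t) h3
  rw [← h2]
  exact this

variable (hdim : ∀ x : C, x ≠ genericPoint C → IsClosed ({x} : Set C))
include hdim

/-- The fibres of `lineMap` of a nonconstant function are finite. -/
lemma finite_fibre_lineMap [LocallyOfFiniteType c] [NoetherianSpace C]
    (U : C.Opens) (hU : genericPoint C ∈ U) (t : Γ(C, U))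
    (ht : toFF U hU t ∉ Set.range (kToFF c)) (y : Spec (CommRingCat.of k[X])) :
    (lineMap c U t ⁻¹' {y}).Finite := by
  set η : U.toScheme := ⟨genericPoint C, hU⟩ with hη
  have hdimU : ∀ x : U.toScheme, x ≠ η → IsClosed ({x} : Set U.toScheme) := by
    intro x hx
    have hx1 : (U.ι x) ≠ genericPoint C := fun h => hx (Subtype.ext h)
    have hcl := (hdim _ hx1).preimage U.ι.continuous
    have : U.ι ⁻¹' {U.ι x} = {x} := by
      ext z
      simp only [Set.mem_preimage, Set.mem_singleton_iff]
      exact U.ι.isOpenEmbedding.injective.eq_iff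
    rwa [this] at hcl
  have : NoetherianSpace U.toScheme := U.ι.isOpenEmbedding.isInducing.noetherianSpace
  by_cases hy : y.asIdeal = ⊥
  · -- generic fibre
    refine (Set.finite_singleton η).subset ?_
    intro x hx
    simp only [Set.mem_preimage, Set.mem_singleton_iff] at hx
    by_contra hxη
    have hcl := isClosed_lineMap_of_isClosed c U t x (hdimU x hxη)
    rw [hx] at hcl
    exact not_isClosed_singleton_of_asIdeal_eq_bot y hy hcl
  · -- closed fibres
    obtain ⟨p, hpy, hp0⟩ := Submodule.exists_mem_ne_zero_of_ne_bot hy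
    have hφ := polyToSection_ne_zero c U hU t ht p hp0
    have hZ : IsClosed ((lineMap c U t ⁻¹ᵁ (PrimeSpectrum.basicOpen p) : U.toScheme.Opens) : Set U.toScheme)ᶜ :=
      (Opens.isOpen _).isClosed_compl
    have hηZ : η ∉ ((lineMap c U t ⁻¹ᵁ (PrimeSpectrum.basicOpen p) : U.toScheme.Opens) : Set U.toScheme)ᶜ := by
      rw [Set.notMem_compl_iff, lineMap_preimage_basicOpen]
      exact genericPoint_mem_basicOpen hU _ hφ
    refine (finite_of_isClosed_of_notMem η hdimU hZ hηZ).subset ?_
    intro x hx
    simp only [Set.mem_preimage, Set.mem_singleton_iff] at hx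
    simp only [Set.mem_compl_iff, SetLike.mem_coe]
    intro hmem
    have h4 : p ∉ (lineMap c U t x).asIdeal := hmem
    rw [hx] at h4
    exact h4 hpy

omit hdim [IsAlgClosed k] [IsIntegral C] in
lemma noetherianSpace_of_isProper [IsProper c] : NoetherianSpace C := by
  have h1 : IsLocallyNoetherian C := LocallyOfFiniteType.isLocallyNoetherian c
  have h2 : CompactSpace C := (quasiCompact_iff_compactSpace c).mp inferInstance
  have h3 : IsNoetherian C := {}
  infer_instance

omit hdim [IsAlgClosed k] in
lemma zero_mem_range_kToFF : (0 : C.functionField) ∈ Set.range (kToFF c) := ⟨0, map_zero _⟩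

variable (hval : ∀ x : C, ValuationRing (C.presheaf.stalk x))
include hval

/-- **Finiteness of the chart.**  For a nonconstant rational function `f` on a smooth proper curve
the morphism `dom f → 𝔸¹` is finite. -/
theorem isFinite_lineMap_dom [IsProper c] (f : C.functionField)
    (hf : f ∉ Set.range (kToFF c)) : IsFinite (lineMap c (dom f) (sec f)) := by
  have hN : NoetherianSpace C := noetherianSpace_of_isProper c
  have hf0 : f ≠ 0 := fun h => hf (h ▸ zero_mem_range_kToFF c)
  have hUc : IsCompact ((dom f : C.Opens) : Set C) := NoetherianSpace.isCompact _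
  have hpole : ∀ x : C, x ∉ dom f → ∃ (W : C.Opens) (b : Γ(C, W)), x ∈ W ∧ x ∉ C.basicOpen b ∧
      C.presheaf.map (homOfLE (inf_le_left : W ⊓ dom f ≤ W)).op b *
        C.presheaf.map (homOfLE (inf_le_right : W ⊓ dom f ≤ dom f)).op
          (polyToSection c (dom f) (sec f) (X : k[X])) = 1 := by
    intro x hx
    obtain ⟨hxW, hxb⟩ := exists_pole_witness hval hx
    refine ⟨dom f⁻¹, sec f⁻¹, hxW, hxb, ?_⟩
    rw [polyToSection_X, mul_comm]
    exact sec_mul_sec_inv hf0 (dom f⁻¹ ⊓ dom f) inf_le_right inf_le_left
  have hproper : IsProper (lineMap c (dom f) (sec f)) :=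
    isProper_partial c (dom f) hUc (polyToSection c (dom f) (sec f))
      (Spec.map (CommRingCat.ofHom (Polynomial.C : k →+* k[X])))
      (lineMap_comp c (dom f) (sec f)) (X : k[X]) hpole
  have hft : LocallyOfFiniteType (lineMap c (dom f) (sec f)) := inferInstance
  have hqf : LocallyQuasiFinite (lineMap c (dom f) (sec f)) := by
    refine LocallyQuasiFinite.of_finite_preimage_singleton _ (fun y => ?_)
    refine finite_fibre_lineMap c hdim (dom f) (genericPoint_mem_dom f) (sec f) ?_ y
    rw [toFF_sec]
    exact hf
  exact IsFinite.of_isProper_of_locallyQuasiFinite _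

/-- The domain of definition of a nonconstant rational function on a smooth proper curve is
affine. -/
theorem isAffineOpen_dom [IsProper c] (f : C.functionField)
    (hf : f ∉ Set.range (kToFF c)) : IsAffineOpen (dom f) := by
  have := isFinite_lineMap_dom c hdim hval f hf
  exact isAffine_of_isAffineHom (lineMap c (dom f) (sec f))

end

end Fermat.Agent.Jac.FiniteToLine80
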