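/-
Fermat/Agent/Jac/FiniteToLine80/Assembly.lean  (helper80)

S25 programme (JAC), brick C2 FiniteToLine, final assembly: a smooth proper integral curve
`c : C ⟶ Spec k` over an algebraically closed field with a section `ε` admits two-chart data
`CurveCharts c ε` (the output structure of C2, defined in `Fermat/Agent/Jac/CurveCharts.lean`).

Inputs: C1 (helper81, `CurveLocal.Points`), C2-beta (helper86, `FiniteToLine86.Finite`, for the
`Module.AEval` finiteness/freeness) and this directory (domain of definition, poles, finiteness).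
The only remaining hypothesis is `global_const` (`Γ(C, ⊤) = k`).
-/
import Fermat.Agent.Jac.CurveCharts
import Fermat.Agent.Jac.CurveLocal.Points
import Fermat.Agent.Jac.FiniteToLine86.Finite
import Fermat.Agent.Jac.FiniteToLine80.FiniteChart

set_option autoImplicit false

universe u

open AlgebraicGeometry CategoryTheory TopologicalSpace Opposite Polynomial
open NeronModelInfra

namespace Fermat.Agent.Jac.FiniteToLine80

section Inputs

variable {k : Type u} [Field k] [IsAlgClosed k] {C : Scheme.{u}} (c : C ⟶ Spec (.of k))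
  [SmoothOfRelativeDimension 1 c] [IsIntegral C]

include c in
/-- Every non-generic point of a smooth integral curve is closed. -/
lemma hdim_of_smooth (x : C) (hx : x ≠ genericPoint C) : IsClosed ({x} : Set C) :=
  (CurveLocal.isClosed_singleton_or_eq_genericPoint c x).resolve_right hx

omit [IsAlgClosed k] [SmoothOfRelativeDimension 1 c] [IsIntegral C] in
lemma valuationRing_of_isField {A : Type*} [CommRing A] [IsDomain A] (h : IsField A) :
    ValuationRing A := by
  have : PreValuationRing A := by
    constructor
    intro a b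
    by_cases ha : a = 0
    · exact ⟨0, Or.inr (by rw [ha, mul_zero])⟩
    · obtain ⟨a', ha'⟩ := h.mul_inv_cancel ha
      exact ⟨a' * b, Or.inl (by rw [← mul_assoc, ha', one_mul])⟩
  exact {}

include c in
/-- All local rings of a smooth integral curve are valuation rings. -/
lemma hval_of_smooth (x : C) : ValuationRing (C.presheaf.stalk x) := by
  rcases CurveLocal.isClosed_singleton_or_eq_genericPoint c x with h | h
  · have := CurveLocal.isDiscreteValuationRing_stalk_of_isClosed c x h
    infer_instance
  · subst h
    exact valuationRing_of_isField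
      (isField_stalk_of_closure_mem_irreducibleComponents C _
        (by simp [irreducibleComponents_eq_singleton]))

omit [IsAlgClosed k] [SmoothOfRelativeDimension 1 c] in
/-- A rational function with a pole is not constant. -/
lemma notMem_range_kToFF_of_notMem_dom {f : C.functionField} {x : C} (hx : x ∉ dom f) :
    f ∉ Set.range (kToFF c) := by
  rintro ⟨a, ha⟩
  apply hx
  have h : toFF ⊤ (show genericPoint C ∈ (⊤ : C.Opens) from trivial) (kToSection c ⊤ a) = f := by
    rw [toFF_kToSection, ha]
  exact le_dom_of_toFF_eq _ _ h (show x ∈ (⊤ : C.Opens) from trivial)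

omit [IsAlgClosed k] [SmoothOfRelativeDimension 1 c] in
lemma inv_notMem_range_kToFF {f : C.functionField} (hf : f ∉ Set.range (kToFF c)) :
    f⁻¹ ∉ Set.range (kToFF c) := by
  rintro ⟨a, ha⟩
  apply hf
  refine ⟨a⁻¹, ?_⟩
  rw [map_inv₀, ha, inv_inv]

omit [IsAlgClosed k] [SmoothOfRelativeDimension 1 c] in
/-- At a point whose local ring is a discrete valuation ring there is a rational function with a
pole. -/
lemma exists_notMem_dom (x : C) [IsDiscreteValuationRing (C.presheaf.stalk x)] :
    ∃ f : C.functionField, x ∉ dom f := by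
  obtain ⟨ϖ, hϖ⟩ := IsDiscreteValuationRing.exists_irreducible (C.presheaf.stalk x)
  have hne : algebraMap (C.presheaf.stalk x) C.functionField ϖ ≠ 0 := by
    intro h
    exact hϖ.ne_zero (algebraMap_stalk_injective x (h.trans (map_zero _).symm))
  refine ⟨(algebraMap (C.presheaf.stalk x) C.functionField ϖ)⁻¹, fun hx => ?_⟩
  rw [mem_dom_iff] at hx
  obtain ⟨β, hβ⟩ := hx
  apply hϖ.not_isUnit
  refine IsUnit.of_mul_eq_one β ?_
  apply algebraMap_stalk_injective x
  rw [map_mul, hβ, map_one, mul_inv_cancel₀ hne]

end Inputs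

section Assembly

variable {k : Type u} [Field k] [IsAlgClosed k] {C : Scheme.{u}} (c : C ⟶ Spec (.of k))
  [IsIntegral C]

/-- The unique point of `Spec k`. -/
noncomputable def specPt : Spec (CommRingCat.of k) := IsLocalRing.closedPoint k

omit [IsAlgClosed k] in
lemma opens_spec_field_eq_top_of_mem (V : (Spec (CommRingCat.of k)).Opens)
    (h : (specPt : Spec (CommRingCat.of k)) ∈ V) : V = ⊤ :=
  (IsLocalRing.closedPoint_mem_iff (U := V)).mp h

omit [IsAlgClosed k] [IsIntegral C] in
/-- A function vanishing at the image of a `k`-point pulls back to zero. -/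
lemma app_eq_zero_of_notMem_basicOpen (p : Spec (CommRingCat.of k) ⟶ C) (U : C.Opens)
    (s : Γ(C, U)) (hs : p specPt ∉ C.basicOpen s) : (p.app U).hom s = 0 := by
  have h1 : (Spec (CommRingCat.of k)).basicOpen ((p.app U).hom s) = ⊥ := by
    have h2 := Scheme.preimage_basicOpen p s
    rw [← h2]
    by_contra hne
    apply hs
    obtain ⟨z, hz⟩ : ∃ z, z ∈ p ⁻¹ᵁ C.basicOpen s := by
      by_contra hcon
      apply hne
      ext z
      simp only [Opens.coe_bot, Set.mem_empty_iff_false, iff_false]
      exact fun hz => hcon ⟨z, hz⟩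
    have hz' : z = specPt := Subsingleton.elim _ _
    rw [hz'] at hz
    exact hz
  exact (AlgebraicGeometry.basicOpen_eq_bot_iff ((p.app U).hom s)).mp h1

omit [IsAlgClosed k] in
lemma isMaxDomain_dom (f : C.functionField) :
    haveI : Nonempty (dom f) := ⟨⟨genericPoint C, genericPoint_mem_dom f⟩⟩
    FiniteToLine86.Valuative.IsMaxDomain (dom f) (sec f) := by
  intro x hx
  obtain ⟨a, ha⟩ := hx
  exact mem_dom_iff.mpr ⟨a, ha.trans (toFF_sec f)⟩

omit [IsAlgClosed k] in
lemma sec_ne_const {f : C.functionField} (hf : f ∉ Set.range (kToFF c)) (a : k) :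
    sec f ≠ FiniteToLine86.Basic.kToU c (dom f) a := by
  intro h
  apply hf
  refine ⟨a, ?_⟩
  have h2 := toFF_kToSection c (dom f) (genericPoint_mem_dom f) a
  have h3 : toFF (dom f) (genericPoint_mem_dom f) (sec f) =
      toFF (dom f) (genericPoint_mem_dom f) (kToSection c (dom f) a) := congrArg _ h
  rw [toFF_sec] at h3
  exact (h3.trans h2).symm

/-- **C2, conditional form.**  Two-chart data from a rational function with a pole at the base
point. -/
theorem nonempty_curveCharts_of_pole [IsProper c]
    (ε : SchemeHomOver (𝟙 (Spec (CommRingCat.of k))) c)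
    (hdim : ∀ x : C, x ≠ genericPoint C → IsClosed ({x} : Set C))
    (hval : ∀ x : C, ValuationRing (C.presheaf.stalk x))
    (hded : ∀ U : C.Opens, IsAffineOpen U → (U : Set C).Nonempty → IsDedekindDomain Γ(C, U))
    (hglob : Function.Bijective (sectionsRingHom c (⊤ : C.Opens)))
    (f : C.functionField) (hpole : ε.1 specPt ∉ dom f) :
    Nonempty (CurveCharts c ε) := by
  have hf : f ∉ Set.range (kToFF c) := notMem_range_kToFF_of_notMem_dom c hpole
  have hf' : f⁻¹ ∉ Set.range (kToFF c) := inv_notMem_range_kToFF c hf
  have hf0 : f ≠ 0 := fun h => hf (h ▸ zero_mem_range_kToFF c)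
  obtain ⟨hx1, hxb⟩ := exists_pole_witness hval hpole
  have hne0 : Nonempty (dom f) := ⟨⟨genericPoint C, genericPoint_mem_dom f⟩⟩
  have hne1 : Nonempty (dom f⁻¹) := ⟨⟨genericPoint C, genericPoint_mem_dom f⁻¹⟩⟩
  have hbase : ε.1 ⁻¹ᵁ dom f⁻¹ = ⊤ := opens_spec_field_eq_top_of_mem _ hx1
  exact ⟨
    { U0 := dom f
      U1 := dom f⁻¹
      affine0 := isAffineOpen_dom c hdim hval f hf
      affine1 := isAffineOpen_dom c hdim hval f⁻¹ hf'
      cover := dom_sup_dom_inv hval f
      t := sec f
      s := sec f⁻¹
      inter0 := dom_inf_dom_inv hf0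
      inter1 := dom_inf_dom_inv' hf0
      ts := sec_mul_sec_inv hf0 _ inf_le_left inf_le_right
      base_mem := hbase
      s_base := app_eq_zero_of_notMem_basicOpen ε.1 (dom f⁻¹) (sec f⁻¹) hxb
      finite0 := FiniteToLine86.Finite.finite_aeval c (dom f) (sec f) hval hdim
        (isMaxDomain_dom f) (sec_ne_const c hf)
      free0 := FiniteToLine86.Finite.free_aeval c (dom f) (sec f) hval hdim
        (isMaxDomain_dom f) (sec_ne_const c hf)
      finite1 := FiniteToLine86.Finite.finite_aeval c (dom f⁻¹) (sec f⁻¹) hval hdim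
        (isMaxDomain_dom f⁻¹) (sec_ne_const c hf')
      free1 := FiniteToLine86.Finite.free_aeval c (dom f⁻¹) (sec f⁻¹) hval hdim
        (isMaxDomain_dom f⁻¹) (sec_ne_const c hf')
      dedekind0 := hded _ (isAffineOpen_dom c hdim hval f hf) ⟨_, genericPoint_mem_dom f⟩
      dedekind1 := hded _ (isAffineOpen_dom c hdim hval f⁻¹ hf') ⟨_, genericPoint_mem_dom f⁻¹⟩
      global_const := hglob }⟩

/-- **C2, modulo `Γ(C, ⊤) = k`.**  A smooth proper integral curve over an algebraically closed
field with a base point has two-chart data. -/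
theorem nonempty_curveCharts_of_global_const [IsProper c] [SmoothOfRelativeDimension 1 c]
    (ε : SchemeHomOver (𝟙 (Spec (CommRingCat.of k))) c)
    (hglob : Function.Bijective (sectionsRingHom c (⊤ : C.Opens))) :
    Nonempty (CurveCharts c ε) := by
  have hdim := hdim_of_smooth c
  have hval := hval_of_smooth c
  have hded : ∀ U : C.Opens, IsAffineOpen U → (U : Set C).Nonempty →
      IsDedekindDomain Γ(C, U) := by
    intro U hU hne
    have : Nonempty U := hne.to_subtype
    exact CurveLocal.isDedekindDomain_of_isAffineOpen c hU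
  have hx0 : IsClosed ({ε.1 specPt} : Set C) :=
    CurveLocal.isClosed_singleton_section c ε.1 ε.2 specPt
  have := CurveLocal.isDiscreteValuationRing_stalk_of_isClosed c _ hx0
  obtain ⟨f, hf⟩ := exists_notMem_dom (ε.1 specPt)
  exact nonempty_curveCharts_of_pole c ε hdim hval hded hglob f hf

end Assembly

end Fermat.Agent.Jac.FiniteToLine80
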