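/-
Fermat/Agent/Jac/FiniteToLine80/Poles.lean  (helper80)

S25 programme (JAC), brick C2 FiniteToLine, part 2.

For an integral scheme `X` all of whose local rings are valuation rings (e.g. a regular curve) and a
nonzero rational function `f`:
* `dom f ⊔ dom f⁻¹ = ⊤`;
* `dom f ⊓ dom f⁻¹ = X.basicOpen (sec f)`;
* `sec f * sec f⁻¹ = 1` on the overlap;
* outside `dom f` the function `f⁻¹` is regular and vanishes (`exists_pole_witness`).
-/
import Fermat.Agent.Jac.FiniteToLine80.DomainOfDef

set_option autoImplicit false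

universe u

open AlgebraicGeometry CategoryTheory TopologicalSpace Opposite

namespace Fermat.Agent.Jac.FiniteToLine80

variable {X : Scheme.{u}} [IsIntegral X]

lemma algebraMap_stalk_injective (x : X) :
    Function.Injective (algebraMap (X.presheaf.stalk x) X.functionField) :=
  IsFractionRing.injective _ _

/-- A point of `dom f` lies in `dom f⁻¹` iff `sec f` is invertible there. -/
lemma mem_dom_inv_iff {f : X.functionField} (hf : f ≠ 0) {x : X} (hx : x ∈ dom f) :
    x ∈ dom f⁻¹ ↔ x ∈ X.basicOpen (sec f) := by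
  rw [Scheme.mem_basicOpen X (sec f) x hx, mem_dom_iff]
  constructor
  · rintro ⟨β, hβ⟩
    refine IsUnit.of_mul_eq_one β ?_
    apply algebraMap_stalk_injective x
    rw [map_mul, hβ, algebraMap_germ_sec hx, map_one, mul_inv_cancel₀ hf]
  · intro hu
    obtain ⟨u, hu⟩ := hu
    refine ⟨((u⁻¹ : (X.presheaf.stalk x)ˣ) : X.presheaf.stalk x), ?_⟩
    have h1 : algebraMap (X.presheaf.stalk x) X.functionField (u : X.presheaf.stalk x) = f := by
      rw [hu, algebraMap_germ_sec hx]
    have h2 : algebraMap (X.presheaf.stalk x) X.functionField (u : X.presheaf.stalk x) *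
        algebraMap (X.presheaf.stalk x) X.functionField
          ((u⁻¹ : (X.presheaf.stalk x)ˣ) : X.presheaf.stalk x) = 1 := by
      rw [← map_mul, Units.mul_inv, map_one]
    rw [h1] at h2
    exact (eq_inv_of_mul_eq_one_right h2)

lemma dom_inf_dom_inv {f : X.functionField} (hf : f ≠ 0) :
    dom f ⊓ dom f⁻¹ = X.basicOpen (sec f) := by
  ext x
  constructor
  · rintro ⟨hx, hx'⟩
    exact (mem_dom_inv_iff hf hx).mp hx'
  · intro hx
    have hx0 : x ∈ dom f := X.basicOpen_le _ hx
    exact ⟨hx0, (mem_dom_inv_iff hf hx0).mpr hx⟩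

lemma dom_inf_dom_inv' {f : X.functionField} (hf : f ≠ 0) :
    dom f ⊓ dom f⁻¹ = X.basicOpen (sec f⁻¹) := by
  have := dom_inf_dom_inv (X := X) (inv_ne_zero hf)
  rw [inv_inv, inf_comm] at this
  exact this

lemma basicOpen_sec_eq {f : X.functionField} (hf : f ≠ 0) :
    X.basicOpen (sec f) = X.basicOpen (sec f⁻¹) :=
  (dom_inf_dom_inv hf).symm.trans (dom_inf_dom_inv' hf)

/-- `sec f * sec f⁻¹ = 1` on any open contained in both domains. -/
lemma sec_mul_sec_inv {f : X.functionField} (hf : f ≠ 0) (V : X.Opens)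
    (h0 : V ≤ dom f) (h1 : V ≤ dom f⁻¹) :
    X.presheaf.map (homOfLE h0).op (sec f) * X.presheaf.map (homOfLE h1).op (sec f⁻¹) = 1 := by
  by_cases hV : genericPoint X ∈ V
  · apply toFF_injective V hV
    rw [toFF_map_mul, toFF_res, toFF_res, toFF_sec, toFF_sec, toFF_map_one, mul_inv_cancel₀ hf]
  · have hbot : V = ⊥ := by
      by_contra hne
      apply hV
      apply genericPoint_mem_of_nonempty
      exact Set.nonempty_iff_ne_empty.mpr (fun h => hne (Opens.ext (by simpa using h)))
    subst hbot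
    have : Subsingleton Γ(X, ⊥) := by
      have := X.sheaf.isTerminalOfBotCover ⊥ (fun x hx => by cases hx)
      exact CommRingCat.subsingleton_of_isTerminal this
    exact Subsingleton.elim _ _

variable (hval : ∀ x : X, ValuationRing (X.presheaf.stalk x))
include hval

lemma mem_dom_or_mem_dom_inv (f : X.functionField) (x : X) : x ∈ dom f ∨ x ∈ dom f⁻¹ := by
  have := hval x
  rcases ValuationRing.isInteger_or_isInteger (X.presheaf.stalk x) f with h | h
  · left
    rw [mem_dom_iff]
    obtain ⟨β, hβ⟩ := h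
    exact ⟨β, hβ⟩
  · right
    rw [mem_dom_iff]
    obtain ⟨β, hβ⟩ := h
    exact ⟨β, hβ⟩

lemma dom_sup_dom_inv (f : X.functionField) : dom f ⊔ dom f⁻¹ = ⊤ := by
  ext x
  simp only [Opens.coe_sup, Set.mem_union, SetLike.mem_coe, Opens.coe_top, Set.mem_univ, iff_true]
  exact mem_dom_or_mem_dom_inv hval f x

/-- Outside of `dom f`, the inverse `f⁻¹` is regular and vanishes. -/
lemma exists_pole_witness {f : X.functionField} {x : X} (hx : x ∉ dom f) :
    x ∈ dom f⁻¹ ∧ x ∉ X.basicOpen (sec f⁻¹) := by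
  have hx' : x ∈ dom f⁻¹ := (mem_dom_or_mem_dom_inv hval f x).resolve_left hx
  refine ⟨hx', fun hb => hx ?_⟩
  have hf : f ≠ 0 := by
    rintro rfl
    apply hx
    rw [mem_dom_iff]
    exact ⟨0, map_zero _⟩
  have := (mem_dom_inv_iff (inv_ne_zero hf) hx').mpr hb
  rwa [inv_inv] at this

end Fermat.Agent.Jac.FiniteToLine80
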