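/-
Fermat/Agent/Jac/FiniteToLine80/Main.lean  (helper80)

S25 programme (JAC), brick C2 FiniteToLine: the unconditional result.
A smooth proper integral curve `c : C ⟶ Spec k` over an algebraically closed field with a base
point `ε` admits two-chart data `CurveCharts c ε`.
(`global_const` is `FiniteToLine86.Inputs.global_const`, helper86.)
-/
import Fermat.Agent.Jac.FiniteToLine80.Assembly
import Fermat.Agent.Jac.FiniteToLine86.Inputs

set_option autoImplicit false

universe u

open AlgebraicGeometry CategoryTheory
open NeronModelInfra

namespace Fermat.Agent.Jac.FiniteToLine80

/-- **Brick C2.**  A smooth proper integral curve over an algebraically closed field with a base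
point is covered by two affine charts pulled back from the projective line. -/
theorem nonempty_curveCharts {k : Type u} [Field k] [IsAlgClosed k] {C : Scheme.{u}}
    (c : C ⟶ Spec (.of k)) [IsIntegral C] [IsProper c] [SmoothOfRelativeDimension 1 c]
    (ε : SchemeHomOver (𝟙 (Spec (CommRingCat.of k))) c) :
    Nonempty (CurveCharts c ε) :=
  nonempty_curveCharts_of_global_const c ε (FiniteToLine86.Inputs.global_const c)

end Fermat.Agent.Jac.FiniteToLine80
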